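import Fermat.Agent.LocE.Main
import Fermat.Agent.EC.MultPlace
import Fermat.Prelude.Def_WeierstrassCurve_PeuRamifiee

/-!
# Node data at `p` of a curve with multiplicative reduction, peu ramifiée

The two roots of the `2`-division polynomial which reduce to the node may be exchanged by inertia;
the critical point `c` of the polynomial near the node is fixed by inertia.
-/

set_option autoImplicit false

namespace Fermat.Agent.Ext.LocM

open WeierstrassCurve WeierstrassCurve.Affine FermatAgent.ECVal Fermat.Agent.ECRed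
  Fermat.Agent.LocE

local notation "Qbar" => AlgebraicClosure ℚ

section

variable {p : ℕ} {A : ValuationSubring Qbar}

/-- a unit at an odd place whose square is fixed by inertia is fixed by inertia -/
theorem isFixed_of_sq (hp : p.Prime) (hp2 : p ≠ 2) (hA : A.LiesOverPrime p) {s : Qbar}
    (hs : (valOf hp hA).Is 0 s) (hs2 : IsFixed A (s ^ 2)) : IsFixed A s := by
  intro σ hσ
  have h1 := hs2 σ hσ
  rw [map_pow] at h1
  rcases sq_eq_sq_iff_eq_or_eq_neg.1 h1 with h | h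
  · exact h
  · exfalso
    have h2 := valOf_inertia hp hA hσ (m := 0) (x := s) (by exact_mod_cast hs.ge)
    have h3 : (valOf hp hA).Is 0 (2 : Qbar) := by
      exact_mod_cast valOf_natCast_of_not_dvd (K := Qbar) hp hA (not_dvd_two hp hp2)
    have h4 : σ s - s = -(2 * s) := by rw [h]; ring
    rw [h4] at h2
    exact (h3.mul hs).neg.not_gt (s := 0) (by norm_num) (by exact_mod_cast h2)

theorem isFixed_intCast (n : ℤ) : IsFixed A (n : Qbar) := fun σ _ => map_intCast σ n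

end

theorem bInt (W : WeierstrassCurve ℤ) (A : ValuationSubring Qbar) :
    BInt (W.map (Int.castRingHom ℚ)) A where
  b2 := by
    have := EQ_b₂ W
    rw [show ((W.map (Int.castRingHom ℚ))⁄Qbar).b₂ = ((W.b₂ : ℤ) : Qbar) from this]
    exact val_intCast_le _ _
  b4 := by
    have := EQ_b₄ W
    rw [show ((W.map (Int.castRingHom ℚ))⁄Qbar).b₄ = ((W.b₄ : ℤ) : Qbar) from this]
    exact val_intCast_le _ _
  b6 := by
    have := EQ_b₆ W
    rw [show ((W.map (Int.castRingHom ℚ))⁄Qbar).b₆ = ((W.b₆ : ℤ) : Qbar) from this]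
    exact val_intCast_le _ _
  b8 := by
    have := EQ_b₈ W
    rw [show ((W.map (Int.castRingHom ℚ))⁄Qbar).b₈ = ((W.b₈ : ℤ) : Qbar) from this]
    exact val_intCast_le _ _

/-- **Node data**, with the inertia-fixed centre `c`. -/
theorem exists_node {W : WeierstrassCurve ℤ} {p : ℕ} (hp : p.Prime) (hp2 : p ≠ 2)
    (hΔ0 : W.Δ ≠ 0) (hΔ : (p : ℤ) ∣ W.Δ) (hc4 : ¬ (p : ℤ) ∣ W.c₄)
    (hfin : (W.map (Int.castRingHom ℚ)).IsPeuRamifieeAt p p)
    {A : ValuationSubring Qbar} (hA : A.LiesOverPrime p) :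
    ∃ (e D c : Qbar) (d : ℕ), 0 < d ∧ e ∈ A ∧ c ∈ A ∧ IsFixed A c ∧
      NodeData (valOf hp hA) ((W.map (Int.castRingHom ℚ))⁄Qbar) e D ((p : ℚ) * d / 2) ∧
      (valOf hp hA).Ge ((p : ℚ) * d / 2) (e - c) := by
  have hW : IsMultAt W p := ⟨hp, hΔ, hc4, hΔ0⟩
  obtain ⟨e, D, N⟩ := hW.exists_nodeRoot hA
  have ND := N.nodeData hp hA hΔ0
  set w := valOf hp hA with hw
  have i2 : w.Is 0 (2 : Qbar) := by
    exact_mod_cast valOf_natCast_of_not_dvd (K := Qbar) hp hA (not_dvd_two hp hp2)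
  have gn : ∀ n : ℕ, w.Ge 0 (n : Qbar) := fun n => QVal.ge_natCast n
  -- the valuation of `D`
  have hD0 : D ≠ 0 := ND.hD.1
  have hDpos : 0 < w.val D := ND.hh
  have hDis : w.Is (w.val D) D := ND.hD
  have hB : w.Is 0 ((EQ W).b₂ + 12 * e) := ND.hB
  set B := (EQ W).b₂ + 12 * e with hBdef
  have hu : w.Is 0 (B ^ 2 - 64 * D) := by
    have h1 : w.Is 0 (B ^ 2) := hB.sq.congr (by ring)
    have h64 : w.Ge 0 (64 : Qbar) := by exact_mod_cast gn 64
    exact h1.sub_gt ((h64.mul hDis.ge).gt (by simpa using hDpos))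
  have hΔis : w.Is (w.val D * 2) ((W.Δ : ℤ) : Qbar) := by
    rw [← EQ_Δ W, N.hΔ]
    exact (hDis.sq.mul hu).congr (by ring)
  have hΔrat : w.Is (padicValRat p ((W.Δ : ℤ) : ℚ)) ((W.Δ : ℤ) : Qbar) := by
    have h1 : ((W.Δ : ℤ) : ℚ) ≠ 0 := by exact_mod_cast hΔ0
    have := valOf_ratCast (K := Qbar) hp hA h1
    rwa [map_intCast] at this
  have hval := hΔis.unique hΔrat
  have hfin' : (p : ℤ) ∣ padicValRat p ((W.Δ : ℤ) : ℚ) := by
    have h1 : (W.map (Int.castRingHom ℚ)).Δ = ((W.Δ : ℤ) : ℚ) := by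
      rw [WeierstrassCurve.map_Δ]; rfl
    have h2 : (p : ℤ) ∣ padicValRat p (W.map (Int.castRingHom ℚ)).Δ := hfin
    rwa [h1] at h2
  obtain ⟨d', hd'⟩ := hfin'
  have hp0 : (0 : ℚ) < p := by exact_mod_cast hp.pos
  have hd'0 : 0 < d' := by
    rw [hd'] at hval
    push_cast at hval
    have h1 : (0 : ℚ) < (p : ℚ) * d' := by rw [← hval]; linarith
    have h2 := (mul_pos_iff_of_pos_left hp0).1 h1
    exact_mod_cast h2
  obtain ⟨d, rfl⟩ : ∃ d : ℕ, d' = d := ⟨d'.toNat, (Int.toNat_of_nonneg hd'0.le).symm⟩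
  have hDd : w.val D = (p : ℚ) * d / 2 := by
    rw [hd'] at hval
    push_cast at hval
    linarith
  -- the centre
  have heA : e ∈ A := by rw [← A.valuation_le_one_iff]; exact N.ve
  obtain ⟨s, hs2, hsB⟩ : ∃ s : Qbar, s ^ 2 = ((W.c₄ : ℤ) : Qbar) ∧ w.Is 0 (s + B) := by
    obtain ⟨s, hs⟩ := IsAlgClosed.exists_pow_nat_eq ((W.c₄ : ℤ) : Qbar) (n := 2) (by norm_num)
    have hsu : w.Ge 0 s := by
      rw [hw, valOf_ge_zero_iff, ← A.valuation_le_one_iff]
      have h1 : A.valuation (s ^ 2) ≤ 1 := by rw [hs]; exact val_intCast_le _ _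
      rw [map_pow] at h1
      by_contra hcon
      rw [not_le] at hcon
      exact absurd h1 (not_le.2 (one_lt_pow₀ hcon two_ne_zero))
    by_cases h1 : w.Gt 0 (s + B)
    · refine ⟨-s, by rw [neg_sq, hs], ?_⟩
      have h2 : -s + B = 2 * B - (s + B) := by ring
      rw [h2]
      exact ((i2.mul hB).congr (by ring)).sub_gt h1
    · refine ⟨s, hs, ?_⟩
      have h2 : w.Ge 0 (s + B) := hsu.add hB.ge
      rw [QVal.not_gt_iff] at h1
      exact ⟨h1.1, le_antisymm h1.2 (h2.resolve_left h1.1)⟩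
  have hc4is : w.Is 0 ((W.c₄ : ℤ) : Qbar) := by
    rw [← EQ_c₄ W, N.hc]
    have h1 : w.Is 0 (B ^ 2) := hB.sq.congr (by ring)
    have h48 : w.Ge 0 (48 : Qbar) := by exact_mod_cast gn 48
    exact h1.sub_gt ((h48.mul hDis.ge).gt (by simpa using hDpos))
  have hsis : w.Is 0 s := by
    have hs0 : s ≠ 0 := by
      rintro rfl
      rw [zero_pow two_ne_zero] at hs2
      exact hc4is.1 hs2.symm
    have h1 := (QVal.Is.of_ne (w := w) hs0).sq
    rw [hs2] at h1
    have h2 := h1.unique hc4is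
    exact ⟨hs0, by linarith⟩
  have hsfix : IsFixed A s := isFixed_of_sq hp hp2 hA hsis (by rw [hs2]; exact isFixed_intCast _)
  set c := e - 4 * D * (s + B)⁻¹ with hcdef
  have h12 : 12 * c = s - ((W.b₂ : ℤ) : Qbar) := by
    have h1 : (s - B) * (s + B) = -(48 * D) := by
      have h2 : s ^ 2 = B ^ 2 - 48 * D := by rw [hs2, ← EQ_c₄ W, N.hc]
      linear_combination h2
    have h3 : s - B = -(48 * D) * (s + B)⁻¹ := by
      rw [← h1, mul_assoc, mul_inv_cancel₀ hsB.1, mul_one]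
    have h4 : ((W.b₂ : ℤ) : Qbar) = B - 12 * e := by rw [hBdef, EQ_b₂ W]; ring
    rw [hcdef, h4]
    linear_combination -h3
  have hec : w.Ge ((p : ℚ) * d / 2) (e - c) := by
    have h1 : e - c = 4 * D * (s + B)⁻¹ := by rw [hcdef]; ring
    have h4 : w.Ge 0 (4 : Qbar) := by exact_mod_cast gn 4
    rw [h1]
    exact ((h4.mul hDis.ge).mul hsB.inv.ge).mono (by rw [hDd]; linarith)
  clear_value c
  refine ⟨e, D, c, d, by exact_mod_cast hd'0, heA, ?_, ?_, ?_, hec⟩
  · rw [← valOf_ge_zero_iff hp hA]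
    have h1 : c = e - (e - c) := by ring
    rw [h1]
    exact ((valOf_ge_zero_iff hp hA).2 heA).sub (hec.mono (by positivity))
  · intro σ hσ
    have h1 : 12 * σ c = 12 * c := by
      have h2 := congrArg σ h12
      rw [map_mul, map_sub, map_intCast, hsfix σ hσ, map_ofNat, ← h12] at h2
      exact h2
    exact mul_left_cancel₀ (by norm_num) h1
  · rw [← hDd]
    exact ND

end Fermat.Agent.Ext.LocM
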