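import Fermat.Agent.Ext.LocM.Main
import Fermat.Agent.Ext.LocM.Node
import Fermat.Agent.S59.LowLocal

/-!
# The local input of level lowering at `p`: multiplicative reduction, peu ramifiée
-/

set_option autoImplicit false
set_option linter.unusedSectionVars false
set_option linter.style.haveILetI false

noncomputable section

open ModularCurve HahnSeries AlgebraicCurve Module
open Fermat.Agent.GaussVal Fermat.Agent.TwoGauss
open WeierstrassCurve WeierstrassCurve.Affine WeierstrassCurve.Affine.Point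
open Fermat.Agent.ECFrob Fermat.Agent.ECRed FermatAgent.ECVal
open scoped Fermat.Agent.GaussVal

namespace Fermat.Agent.Ext.LocM

local notation "𝕂" => AlgebraicClosure ℚ

/-- **The local structure of `E[p]`** at an odd prime `p` of multiplicative reduction, in the peu
ramifiée case. -/
theorem lineAt {W : WeierstrassCurve ℤ} {p : ℕ} [hpf : Fact p.Prime] (hp2 : p ≠ 2)
    (hΔ0 : W.Δ ≠ 0) (hΔ : (p : ℤ) ∣ W.Δ) (hc4 : ¬ (p : ℤ) ∣ W.c₄)
    (hfin : (W.map (Int.castRingHom ℚ)).IsPeuRamifieeAt p p)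
    {A : ValuationSubring 𝕂} (hA : A.LiesOverPrime p) {ζ : 𝕂} (hζ : IsPrimitiveRoot ζ p) :
    LowP.LineAt W p A ζ := by
  have hodd : Odd p := hpf.out.odd_of_ne_two hp2
  obtain ⟨e, D, c, d, hd, he, -, hcf, N, hec⟩ := exists_node hpf.out hp2 hΔ0 hΔ hc4 hfin hA
  have hb := bInt W A
  have hΔQ : (W.map (Int.castRingHom ℚ)).Δ ≠ 0 := by
    rw [WeierstrassCurve.map_Δ]
    simpa using hΔ0
  refine ⟨line N hodd, finrank_line hΔQ N hodd,
    fun σ hσ x => smul_sub_mem_line hΔQ hb he hcf hec N hodd hσ x,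
    fun σ hσ z hz => smul_eq_of_mem_line hΔ0 rfl hb he hcf hec N hodd hσ hz, ?_⟩
  intro z hz hz0 x
  obtain ⟨ρ, hρ, hρσ⟩ := exists_unit hΔ0 rfl hb he hcf hec N hodd hζ hz hz0 x
  refine ⟨ρ, ?_, hρ.1, ?_, hρσ⟩
  · rw [LocE.val_eq_of_is (hA := hA) hρ QVal.is_one, _root_.map_one]
  · intro σ hσ
    obtain ⟨k, -, hk⟩ := hρσ σ hσ
    have h1 : (ζ ^ k.val) ^ p = 1 := by
      rw [← pow_mul, mul_comm, pow_mul, hζ.pow_eq_one, one_pow]
    rw [map_pow, hk, mul_pow, h1, one_mul]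

variable {A : ValuationSubring (AlgebraicClosure ℚ)} {p m : ℕ} [NeZero m]
  [hpf : Fact p.Prime] [CharP (IsLocalRing.ResidueField A) p]

/-- **(D)** the local input, multiplicative peu ramifiée case -/
theorem wt_of_mult (hp : p.Prime) (hp2 : p ≠ 2) (hm : ¬ p ∣ m) (hA : A.LiesOverPrime p)
    (H3 : S18aux.DegThm (IsLocalRing.ResidueField A) m) {W : WeierstrassCurve ℤ}
    (hΔ : W.Δ ≠ 0) (hpΔ : (p : ℤ) ∣ W.Δ) (hc4 : ¬ (p : ℤ) ∣ W.c₄)
    (hper : (W.map (Int.castRingHom ℚ)).IsPeuRamifieeAt p p) : LowP.WT hp hm hA H3 W := by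
  obtain ⟨ζ, hζ⟩ := exists_primitiveRoot p
  exact LowP.wt_of_line hp hm hA H3 hp2 hΔ hζ (lineAt hp2 hΔ hpΔ hc4 hper hA hζ)

end Fermat.Agent.Ext.LocM

end
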