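import Fermat.Agent.Ext.LocM.Line
import Fermat.Agent.LocE.AddVal
import Fermat.Agent.S13_AtP
import Fermat.Agent.ECVal.InertiaFix
import Fermat.Agent.ECFrob.DetCyc

/-!
# The action of inertia at `p` on `E[p]`, multiplicative reduction
-/

set_option autoImplicit false

namespace Fermat.Agent.Ext.LocM

open WeierstrassCurve WeierstrassCurve.Affine WeierstrassCurve.Affine.Point
open Fermat.Agent.Torsion FermatAgent.ECVal Fermat.Agent.S13aux Fermat.Agent.LocE

local notation "Qbar" => AlgebraicClosure ℚ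

variable {W : WeierstrassCurve ℚ} {p : ℕ} [hp : Fact p.Prime]
  {A : ValuationSubring Qbar} {hA : A.LiesOverPrime p} {e D c : Qbar} {n : ℕ}

/-- torsion points in the kernel of reduction are on the line. -/
lemma mem_line_of_inE1 (he : e ∈ A)
    (N : NodeData (valOf hp.out hA) (W⁄Qbar) e D ((p : ℚ) * n / 2)) (hodd : Odd p)
    {y : Submodule.torsionBy ℤ (W⁄Qbar).Point p}
    (hy : InE1 A.valuation (y : (W⁄Qbar).Point)) : y ∈ line N hodd := by
  rw [mem_line]
  by_contra hj
  have h1 := is_of_jN_ne_zero N hodd hj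
  have hn : (0 : ℚ) < n := by exact_mod_cast node_n_pos N
  have hj' : (0 : ℚ) < jN N hodd y := by exact_mod_cast Nat.pos_of_ne_zero hj
  have hpos : (0 : ℚ) < jN N hodd y * n := by positivity
  rcases hye : (y : (W⁄Qbar).Point) with _ | ⟨X, Y, h⟩
  · have : y = 0 := Subtype.ext hye
    rw [this] at hj
    exact hj (line N hodd).zero_mem
  · rw [hye, inE1_some] at hy
    rw [hye] at h1
    have heg : (valOf hp.out hA).Ge 0 e := (valOf_ge_zero_iff hp.out hA).mpr he
    have hX : (valOf hp.out hA).Ge 0 X := by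
      have h2 : X = (X - e) + e := by ring
      rw [h2]
      exact (h1.ge.mono hpos.le).add heg
    rw [valOf_ge_zero_iff, ← A.valuation_le_one_iff] at hX
    exact absurd hy (not_lt.mpr hX)

/-- the nonzero points of the line are in the kernel of reduction. -/
lemma inE1_of_mem_line (hΔ : W.Δ ≠ 0) (hb : BInt W A) (he : e ∈ A)
    (N : NodeData (valOf hp.out hA) (W⁄Qbar) e D ((p : ℚ) * n / 2)) (hodd : Odd p)
    {y : Submodule.torsionBy ℤ (W⁄Qbar).Point p} (hy : y ∈ line N hodd) :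
    InE1 A.valuation (y : (W⁄Qbar).Point) := by
  intro X Y h hye
  have hy0 : y ≠ 0 := by
    rintro rfl
    exact absurd hye.symm (some_ne_zero h)
  have h1 := (val_line hΔ hb he N hodd hy hy0).1
  rw [hye] at h1
  have hp1 : (1 : ℚ) < p := by exact_mod_cast hp.out.one_lt
  have hr : (-2 / (p - 1) : ℚ) < 0 := div_neg_of_neg_of_pos (by norm_num) (by linarith)
  refine (one_lt_val_iff (hp := hp) (hA := hA) h1.1).mpr ?_
  rw [h1.2]; exact hr

/-- **Inertia acts trivially on `E[p]` modulo the line.** -/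
theorem smul_sub_mem_line (hΔ : W.Δ ≠ 0) (hb : BInt W A) (he : e ∈ A) (hcf : IsFixed A c)
    (hec : (valOf hp.out hA).Ge ((p : ℚ) * n / 2) (e - c))
    (N : NodeData (valOf hp.out hA) (W⁄Qbar) e D ((p : ℚ) * n / 2)) (hodd : Odd p)
    {σ : Qbar ≃ₐ[ℚ] Qbar} (hσ : σ ∈ A.inertiaSubgroupIn ℚ)
    (x : Submodule.torsionBy ℤ (W⁄Qbar).Point p) : σ • x - x ∈ line N hodd := by
  rw [← neg_sub]
  refine (line N hodd).neg_mem (mem_line_of_inE1 he N hodd ?_)
  rcases hxe : (x : (W⁄Qbar).Point) with _ | ⟨X, Y, h⟩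
  · have hx0 : x = 0 := Subtype.ext hxe
    rw [hx0, smul_zero, sub_zero]
    exact inE1_zero
  have e1 : ((x - σ • x : Submodule.torsionBy ℤ (W⁄Qbar).Point p) : (W⁄Qbar).Point) =
      (x : (W⁄Qbar).Point) - Point.map σ.toAlgHom (x : (W⁄Qbar).Point) := rfl
  have hx0 : x ≠ 0 := by
    rintro rfl
    exact absurd hxe.symm (some_ne_zero h)
  have hv2 : A.valuation (2 : Qbar) = 1 := by
    rw [val_eq_of_is (hA := hA) (isTwo hodd) QVal.is_one, _root_.map_one]
  rw [e1, hxe, map_some]
  by_cases hj : jN N hodd x = 0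
  · have h1 := inE1_of_mem_line hΔ hb he N hodd (y := x) hj
    rw [hxe, inE1_some] at h1
    rw [sub_eq_add_neg]
    refine inE1_add hb.b2 hb.b4 hb.b6 hb.b8 (inE1_some.mpr h1) (inE1_neg (inE1_some.mpr ?_))
    have : A.valuation (σ X) = A.valuation X := MultRed.val_inertia_eq hσ X
    exact this ▸ h1
  · have h1 := is_of_jN_ne_zero N hodd hj
    rw [hxe] at h1
    change (valOf hp.out hA).Is (jN N hodd x * n) (X - e) at h1
    have hn : (0 : ℚ) < n := by exact_mod_cast node_n_pos N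
    have hj' : (0 : ℚ) < jN N hodd x := by exact_mod_cast Nat.pos_of_ne_zero hj
    have hpos : (0 : ℚ) < jN N hodd x * n := by positivity
    have hlt : (jN N hodd x * n : ℚ) < p * n / 2 := by
      have : (2 * jN N hodd x : ℚ) < p := by exact_mod_cast jN_lt N hodd x
      nlinarith
    have h1c : (valOf hp.out hA).Is (jN N hodd x * n) (X - c) := by
      have h2 : X - c = (X - e) + (e - c) := by ring
      rw [h2]
      exact h1.add_gt (hec.gt hlt)
    have h2 := psi_is_mid N h.1 hpos hlt h1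
    have h3 : (valOf hp.out hA).Is (jN N hodd x * n) ((p : Qbar) ^ (jN N hodd x * n)) :=
      ((valOf_prime hp.out hA).pow _).congr (by push_cast; ring)
    have heg : (valOf hp.out hA).Ge 0 e := (valOf_ge_zero_iff hp.out hA).mpr he
    have hX : (valOf hp.out hA).Ge 0 X := by
      have h2 : X = (X - e) + e := by ring
      rw [h2]
      exact (h1.ge.mono hpos.le).add heg
    rw [valOf_ge_zero_iff, ← A.valuation_le_one_iff] at hX
    refine sub_inE1 (z := (p : Qbar) ^ (jN N hodd x * n)) (e := c) hv2 hb.b2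
      (σ : Qbar →+* Qbar) (fun z hz => MultRed.val_inertia_sub hσ z hz) h _ ?_ ?_
      h3.1 ?_ ?_ hX ?_ ?_
    · exact σ.commutes _
    · exact σ.commutes _
    · rw [map_pow, map_natCast]
    · exact hcf σ hσ
    · exact val_eq_of_is (hA := hA) h2 h3
    · exact (val_eq_of_is (hA := hA) h1c h3).le

lemma finrank_line (hΔ : W.Δ ≠ 0)
    (N : NodeData (valOf hp.out hA) (W⁄Qbar) e D ((p : ℚ) * n / 2)) (hodd : Odd p) :
    Module.finrank (ZMod p) (line N hodd) = 1 := by
  have hfinl : Finite (line N hodd) := Nat.finite_of_card_ne_zero (by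
    rw [card_line hΔ N hodd]; exact hp.out.ne_zero)
  have h1 := Module.natCard_eq_pow_finrank (K := ZMod p) (V := line N hodd)
  rw [card_line hΔ N hodd, Nat.card_zmod] at h1
  have h2 : p ^ 1 = p ^ Module.finrank (ZMod p) (line N hodd) := by rw [pow_one]; exact h1
  exact (Nat.pow_right_injective hp.out.two_le h2).symm

/-- **Inertia acts on the line through the cyclotomic character.** -/
theorem smul_eq_of_mem_line {W₀ : WeierstrassCurve ℤ} (hΔ₀ : W₀.Δ ≠ 0)
    (hW : W = W₀.map (Int.castRingHom ℚ)) (hb : BInt W A) (he : e ∈ A) (hcf : IsFixed A c)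
    (hec : (valOf hp.out hA).Ge ((p : ℚ) * n / 2) (e - c))
    (N : NodeData (valOf hp.out hA) (W⁄Qbar) e D ((p : ℚ) * n / 2)) (hodd : Odd p)
    {σ : Qbar ≃ₐ[ℚ] Qbar} (hσ : σ ∈ A.inertiaSubgroupIn ℚ)
    {z : Submodule.torsionBy ℤ (W⁄Qbar).Point p} (hz : z ∈ line N hodd) :
    σ • z = ECFrob.cycMod p σ • z := by
  subst hW
  have hΔ : (W₀.map (Int.castRingHom ℚ)).Δ ≠ 0 := by
    rw [WeierstrassCurve.map_Δ]
    simpa using hΔ₀
  have hdet := ECFrob.det_rho (p := p) hΔ₀ σ
  have hfin : Finite (Submodule.torsionBy ℤ ((W₀.map (Int.castRingHom ℚ))⁄Qbar).Point p) :=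
    finite_torsionBy_rat hΔ hp.out.ne_zero
  have hfd : FiniteDimensional (ZMod p)
    (Submodule.torsionBy ℤ ((W₀.map (Int.castRingHom ℚ))⁄Qbar).Point p) := Module.Finite.of_finite
  have h1 := det_of_line (line N hodd) (finrank_line hΔ N hodd) (ECFrob.rho W₀ p σ)
    (fun x => smul_sub_mem_line hΔ hb he hcf hec N hodd hσ x) hz
  rw [hdet] at h1
  exact h1

end Fermat.Agent.Ext.LocM
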